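import Mathlib.LinearAlgebra.Lagrange
import Mathlib.Data.Nat.Choose.Multinomial
import Mathlib.Algebra.MvPolynomial.CommRing
import Mathlib.RingTheory.MvPolynomial.Basic
import Mathlib.RingTheory.Localization.FractionRing
import Mathlib.Algebra.Polynomial.BigOperators
import Mathlib.Tactic

/-!
# Dyson's constant term theorem

Good's proof: Lagrange interpolation gives the recurrence of the multinomial coefficients, and
when an exponent vanishes that variable has its largest possible exponent.
-/

set_option autoImplicit false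

noncomputable section

namespace FA.DysonConstantTerm

open Finset MvPolynomial
open scoped Nat

variable {ι : Type*} [DecidableEq ι]

/-- `∏ (x j - x i) ^ a i` over the ordered pairs of distinct elements of `s`. -/
def dysonPoly (s : Finset ι) (a : ι → ℕ) : MvPolynomial ι ℤ :=
  ∏ i ∈ s, ∏ j ∈ s.erase i, (X j - X i) ^ a i

/-- The exponent of the constant term. -/
def dysonExp (s : Finset ι) (a : ι → ℕ) : ι →₀ ℕ :=
  ∑ j ∈ s, Finsupp.single j (∑ i ∈ s.erase j, a i)

theorem dysonExp_apply (s : Finset ι) (a : ι → ℕ) (j : ι) :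
    dysonExp s a j = if j ∈ s then ∑ i ∈ s.erase j, a i else 0 := by
  simp [dysonExp, Finsupp.finsetSum_apply, Finsupp.single_apply]

/-- A polynomial as a polynomial in `x k` over the others. -/
def toTop (k : ι) : MvPolynomial ι ℤ →ₐ[ℤ] Polynomial (MvPolynomial ι ℤ) :=
  aeval fun i => if i = k then Polynomial.X else Polynomial.C (X i)

theorem toTop_monomial {k : ι} {n : ι →₀ ℕ} (hn : n k = 0) (r : ℤ) :
    toTop k (monomial n r) = Polynomial.C (monomial n r) := by
  rw [toTop, aeval_monomial, monomial_eq, map_mul, map_finsuppProd]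
  congr 1
  refine Finsupp.prod_congr fun i hi => ?_
  have : i ≠ k := fun h => Finsupp.mem_support_iff.1 hi (h ▸ hn)
  simp [this]

theorem coeff_toTop (k : ι) (f : MvPolynomial ι ℤ) :
    ∀ (d : ℕ) {e : ι →₀ ℕ}, e k = 0 →
      coeff e ((toTop k f).coeff d) = coeff (e + Finsupp.single k d) f := by
  induction f using MvPolynomial.induction_on' with
  | monomial m r =>
    intro d e he
    have hm : monomial m r = monomial (m.erase k) r * X k ^ m k := by
      rw [X_pow_eq_monomial, monomial_mul, mul_one, Finsupp.erase_add_single]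
    rw [hm, map_mul, map_pow, toTop_monomial (Finsupp.erase_same) r, ← hm, toTop, aeval_X,
      if_pos rfl, Polynomial.coeff_C_mul_X_pow, apply_ite (coeff e), coeff_monomial, coeff_zero,
      coeff_monomial, ← ite_and]
    refine if_congr ⟨fun h => ?_, fun h => ?_⟩ rfl rfl
    · rw [h.1, ← h.2, Finsupp.erase_add_single]
    · subst h
      constructor
      · simp [he]
      · ext i
        rcases eq_or_ne i k with rfl | hi
        · simp [he]
        · simp [hi]
  | add p q hp hq =>
    intro d e he
    rw [map_add, Polynomial.coeff_add, coeff_add, coeff_add, hp d he, hq d he]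

theorem toTop_dysonPoly {k : ι} {s : Finset ι} (hk : k ∉ s) (a : ι → ℕ) :
    toTop k (dysonPoly s a) = Polynomial.C (dysonPoly s a) := by
  simp only [dysonPoly, map_prod, map_pow, map_sub, toTop, aeval_X]
  refine prod_congr rfl fun i hi => prod_congr rfl fun j hj => ?_
  rw [if_neg (ne_of_mem_of_not_mem (mem_of_mem_erase hj) hk),
    if_neg (ne_of_mem_of_not_mem hi hk)]

/-- **A vanishing exponent.** -/
theorem coeff_dysonPoly_erase {s : Finset ι} {a : ι → ℕ} {k : ι} (hk : k ∈ s) (ha : a k = 0) :
    coeff (dysonExp s a) (dysonPoly s a) =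
      coeff (dysonExp (s.erase k) a) (dysonPoly (s.erase k) a) := by
  have hsplit : dysonPoly s a =
      dysonPoly (s.erase k) a * ∏ i ∈ s.erase k, (X k - X i) ^ a i := by
    rw [dysonPoly, ← mul_prod_erase s _ hk, prod_eq_one (fun j _ => by rw [ha, pow_zero]), one_mul,
      dysonPoly, ← prod_mul_distrib]
    refine prod_congr rfl fun i hi => ?_
    have hki : k ∈ s.erase i := mem_erase.2 ⟨(ne_of_mem_erase hi).symm, hk⟩
    rw [← mul_prod_erase _ _ hki, mul_comm, erase_right_comm]
  have hexp : dysonExp s a =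
      dysonExp (s.erase k) a + Finsupp.single k (∑ i ∈ s.erase k, a i) := by
    ext j
    rw [Finsupp.add_apply, dysonExp_apply, dysonExp_apply]
    rcases eq_or_ne j k with rfl | hj
    · simp [hk]
    · simp only [mem_erase, ne_eq, hj, not_false_eq_true, true_and, Finsupp.single_eq_of_ne hj,
        add_zero]
      refine if_ctx_congr Iff.rfl (fun _ => ?_) fun _ => rfl
      rw [erase_right_comm, sum_erase _ ha]
  have hz : dysonExp (s.erase k) a k = 0 := by simp [dysonExp_apply]
  rw [hexp, hsplit, ← coeff_toTop k _ _ hz, map_mul, toTop_dysonPoly (notMem_erase k s),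
    Polynomial.coeff_C_mul]
  have htop : (toTop k (∏ i ∈ s.erase k, (X k - X i) ^ a i)).coeff (∑ i ∈ s.erase k, a i) = 1 := by
    have e : toTop k (∏ i ∈ s.erase k, (X k - X i) ^ a i) =
        ∏ i ∈ s.erase k, (Polynomial.X - Polynomial.C (X i)) ^ a i := by
      simp only [map_prod, map_pow, map_sub, toTop, aeval_X, if_true]
      exact prod_congr rfl fun i hi => by rw [if_neg (ne_of_mem_erase hi)]
    have hmonic : ∀ i ∈ s.erase k,
        ((Polynomial.X - Polynomial.C (X i : MvPolynomial ι ℤ)) ^ a i).Monic :=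
      fun i _ => (Polynomial.monic_X_sub_C _).pow _
    rw [e]
    have hd : (∏ i ∈ s.erase k,
        (Polynomial.X - Polynomial.C (X i : MvPolynomial ι ℤ)) ^ a i).natDegree =
        ∑ i ∈ s.erase k, a i := by
      rw [Polynomial.natDegree_prod_of_monic _ _ hmonic]
      exact sum_congr rfl fun i _ => by
        rw [(Polynomial.monic_X_sub_C _).natDegree_pow, Polynomial.natDegree_X_sub_C, mul_one]
    rw [← hd]
    exact Polynomial.monic_prod_of_monic _ _ hmonic
  rw [htop, mul_one]

theorem dysonPoly_eq_update_mul {s : Finset ι} {a : ι → ℕ} {j : ι} (hj : j ∈ s) (ha : a j ≠ 0) :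
    dysonPoly s a = dysonPoly s (Function.update a j (a j - 1)) *
      ∏ i ∈ s.erase j, (X i - X j) := by
  rw [dysonPoly, dysonPoly, ← mul_prod_erase s _ hj, ← mul_prod_erase s _ hj, mul_right_comm,
    Function.update_self]
  congr 1
  · rw [← prod_mul_distrib]
    refine prod_congr rfl fun i _ => ?_
    rw [← pow_succ, Nat.sub_add_cancel (Nat.one_le_iff_ne_zero.2 ha)]
  · refine prod_congr rfl fun i hi => ?_
    rw [Function.update_of_ne (ne_of_mem_erase hi)]

/-- **Good's recurrence.** -/
theorem dysonPoly_eq_sum {s : Finset ι} {a : ι → ℕ} (hs : s.Nonempty) (ha : ∀ i ∈ s, a i ≠ 0) :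
    dysonPoly s a =
      ∑ j ∈ s, dysonPoly s (Function.update a j (a j - 1)) * ∏ i ∈ s.erase j, X i := by
  obtain ⟨em, hem⟩ : ∃ em, em =
      algebraMap (MvPolynomial ι ℤ) (FractionRing (MvPolynomial ι ℤ)) := ⟨_, rfl⟩
  have hinj : Function.Injective em := hem ▸ IsFractionRing.injective _ _
  apply hinj
  obtain ⟨v, hv⟩ : ∃ v, v = fun i : ι => em (X i) := ⟨_, rfl⟩
  have hvs : Set.InjOn v s := fun i _ j _ h => X_injective (hinj (by simpa [hv] using h))
  have h1 := congrArg (Polynomial.eval 0) (Lagrange.sum_basis hvs hs)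
  rw [Polynomial.eval_one, Polynomial.eval_finsetSum] at h1
  rw [map_sum, ← mul_one (em (dysonPoly s a)), ← h1, mul_sum]
  refine sum_congr rfl fun j hj => ?_
  rw [Lagrange.basis, Polynomial.eval_prod]
  conv_lhs => rw [dysonPoly_eq_update_mul hj (ha j hj)]
  rw [map_mul, map_mul, map_prod, map_prod, mul_assoc, ← prod_mul_distrib]
  congr 1
  refine prod_congr rfl fun i hi => ?_
  have hne : v j - v i ≠ 0 := sub_ne_zero.2 fun h =>
    ne_of_mem_erase hi (hvs (mem_of_mem_erase hi) hj h.symm)
  rw [hv] at hne
  simp only [Lagrange.basisDivisor, Polynomial.eval_mul, Polynomial.eval_C, Polynomial.eval_sub,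
    Polynomial.eval_X, map_sub, zero_sub, hv]
  field_simp
  ring

theorem sum_update_eq {t : Finset ι} {j : ι} (hj : j ∉ t) (a : ι → ℕ) (v : ℕ) :
    ∑ i ∈ t, Function.update a j v i = ∑ i ∈ t, a i :=
  sum_congr rfl fun _ hi => Function.update_of_ne (ne_of_mem_of_not_mem hi hj) v a

/-- The recurrence of the multinomial coefficients. -/
theorem multinomial_eq_sum {s : Finset ι} {a : ι → ℕ} (hs : s.Nonempty) (ha : ∀ i ∈ s, a i ≠ 0) :
    Nat.multinomial s a = ∑ j ∈ s, Nat.multinomial s (Function.update a j (a j - 1)) := by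
  have hpos : 0 < ∏ i ∈ s, (a i)! := prod_pos fun i _ => Nat.factorial_pos _
  refine Nat.eq_of_mul_eq_mul_left hpos ?_
  obtain ⟨S, hS⟩ : ∃ S, ∑ i ∈ s, a i = S + 1 := by
    obtain ⟨j, hj⟩ := hs
    exact Nat.exists_eq_add_of_le' ((Nat.one_le_iff_ne_zero.2 (ha j hj)).trans
      (single_le_sum (fun i _ => Nat.zero_le _) hj))
  rw [Nat.multinomial_spec, hS, Nat.factorial_succ, mul_sum]
  nth_rewrite 1 [← hS]
  rw [sum_mul]
  refine sum_congr rfl fun j hj => ?_
  have hj1 : a j - 1 + 1 = a j := Nat.sub_add_cancel (Nat.one_le_iff_ne_zero.2 (ha j hj))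
  have hspec := Nat.multinomial_spec (s := s) (f := Function.update a j (a j - 1))
  have hsum : ∑ i ∈ s, Function.update a j (a j - 1) i = S := by
    rw [← add_sum_erase _ _ hj] at hS
    rw [← add_sum_erase _ _ hj, Function.update_self, sum_update_eq (notMem_erase j s)]
    omega
  have hprod : ∏ i ∈ s, (a i)! = a j * ∏ i ∈ s, (Function.update a j (a j - 1) i)! := by
    rw [← mul_prod_erase _ _ hj, ← mul_prod_erase _ _ hj, Function.update_self,
      show ∏ i ∈ s.erase j, (Function.update a j (a j - 1) i)! = ∏ i ∈ s.erase j, (a i)! from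
        prod_congr rfl fun i hi => by rw [Function.update_of_ne (ne_of_mem_erase hi)],
      ← mul_assoc, Nat.mul_factorial_pred (ha j hj)]
  rw [hprod, mul_assoc, hspec, hsum]

/-- **Dyson's constant term theorem.** -/
theorem coeff_dysonPoly (s : Finset ι) (a : ι → ℕ) :
    coeff (dysonExp s a) (dysonPoly s a) = (Nat.multinomial s a : ℤ) := by
  generalize hN : s.card + ∑ i ∈ s, a i = N
  induction N using Nat.strong_induction_on generalizing s a with
  | _ N ih =>
  rcases s.eq_empty_or_nonempty with rfl | hs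
  · simp [dysonPoly, dysonExp]
  by_cases h0 : ∃ k ∈ s, a k = 0
  · obtain ⟨k, hk, hak⟩ := h0
    rw [coeff_dysonPoly_erase hk hak]
    have hlt : (s.erase k).card + ∑ i ∈ s.erase k, a i < N := by
      rw [← hN, sum_erase _ hak, card_erase_of_mem hk]
      have := card_pos.2 ⟨k, hk⟩
      omega
    rw [ih _ hlt _ _ rfl]
    congr 1
    refine Nat.eq_of_mul_eq_mul_left (prod_pos fun i _ => Nat.factorial_pos (a i))
      ((Nat.multinomial_spec (s := s.erase k) (f := a)).trans ?_)
    rw [sum_erase _ hak, ← Nat.multinomial_spec (s := s), prod_erase _ (by rw [hak]; rfl)]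
  · push Not at h0
    rw [dysonPoly_eq_sum hs h0, coeff_sum, multinomial_eq_sum hs h0, Nat.cast_sum]
    refine sum_congr rfl fun j hj => ?_
    have hmono : (∏ i ∈ s.erase j, (X i : MvPolynomial ι ℤ)) =
        monomial (∑ i ∈ s.erase j, Finsupp.single i 1) 1 := by
      rw [monomial_sum_one]
      rfl
    have hexp : dysonExp s a = dysonExp s (Function.update a j (a j - 1)) +
        ∑ i ∈ s.erase j, Finsupp.single i 1 := by
      ext i
      simp only [Finsupp.add_apply, dysonExp_apply, Finsupp.finsetSum_apply, Finsupp.single_apply,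
        sum_ite_eq', mem_erase]
      by_cases hi : i ∈ s
      · rw [if_pos hi, if_pos hi]
        rcases eq_or_ne i j with rfl | hij
        · rw [if_neg (fun h => h.1 rfl), add_zero]
          exact sum_congr rfl fun l hl => (Function.update_of_ne (ne_of_mem_erase hl) _ _).symm
        · have hje : j ∈ s.erase i := mem_erase.2 ⟨hij.symm, hj⟩
          rw [if_pos ⟨hij, hi⟩, ← add_sum_erase _ _ hje, ← add_sum_erase _ _ hje,
            Function.update_self, sum_update_eq (notMem_erase j (s.erase i))]
          have := h0 j hj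
          omega
      · simp [hi]
    rw [hmono, hexp, coeff_mul_monomial, mul_one]
    refine ih _ ?_ _ _ rfl
    rw [← hN, ← add_sum_erase _ _ hj, ← add_sum_erase _ _ hj, Function.update_self,
      sum_update_eq (notMem_erase j s)]
    have := h0 j hj
    omega

omit [DecidableEq ι] in
theorem multinomial_const (s : Finset ι) (k : ℕ) :
    (k ! ^ s.card) * Nat.multinomial s (fun _ => k) = (s.card * k)! := by
  simpa using Nat.multinomial_spec (s := s) (f := fun _ => k)

end FA.DysonConstantTerm
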