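import Mathlib.Analysis.SpecialFunctions.Integrals.Basic
import Mathlib.MeasureTheory.Integral.Pi
import Mathlib.MeasureTheory.Function.LocallyIntegrable
import Mathlib.Algebra.Order.BigOperators.Group.LocallyFinite
import Fermat.Agent.DysonConstantTerm.Main

/-!
# Equal exponents: the circular ensembles of Dyson

The mean of `∏_{i < j} |z i - z j| ^ (2 k)` over the torus is the constant term.
-/

set_option autoImplicit false

noncomputable section

namespace FA.DysonConstantTerm

open Finset MeasureTheory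
open scoped Nat Real

theorem erase_univ {n : ℕ} (i : Fin n) : (univ : Finset (Fin n)).erase i = {i}ᶜ :=
  (compl_singleton i).symm

theorem dysonExp_const (n k : ℕ) (i : Fin n) :
    dysonExp (univ : Finset (Fin n)) (fun _ => k) i = (n - 1) * k := by
  rw [dysonExp_apply, if_pos (mem_univ i), sum_const, card_erase_of_mem (mem_univ i), card_univ,
    Fintype.card_fin, smul_eq_mul]

theorem coeff_dysonPoly_const (n k : ℕ) :
    MvPolynomial.coeff (dysonExp (univ : Finset (Fin n)) fun _ => k)
        (dysonPoly (univ : Finset (Fin n)) fun _ => k) * (k ! : ℤ) ^ n = ((n * k)! : ℤ) := by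
  rw [coeff_dysonPoly, mul_comm]
  have h := multinomial_const (univ : Finset (Fin n)) k
  rw [card_univ, Fintype.card_fin] at h
  exact_mod_cast h

theorem dysonPoly_const (n k : ℕ) : dysonPoly (univ : Finset (Fin n)) (fun _ => k) =
    ((-1) ^ (n.choose 2) * ∏ i, ∏ j ∈ Ioi i,
      (MvPolynomial.X i - MvPolynomial.X j) ^ 2) ^ k := by
  have hpairs : ∏ i : Fin n, ∏ j ∈ Ioi i, (-1 : MvPolynomial (Fin n) ℤ) =
      (-1) ^ (n.choose 2) := by
    simp only [prod_const, Fin.card_Ioi, prod_pow_eq_pow_sum]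
    congr 1
    rw [Fin.sum_univ_eq_sum_range (fun i => n - 1 - i), sum_range_reflect (fun i => i),
      Finset.sum_range_id, Nat.choose_two_right]
  rw [← hpairs, ← prod_mul_distrib, dysonPoly]
  simp only [← prod_mul_distrib, erase_univ]
  rw [← prod_prod_Ioi_mul_eq_prod_prod_off_diag
    (fun a b : Fin n => ((MvPolynomial.X a - MvPolynomial.X b : MvPolynomial (Fin n) ℤ)) ^ k)]
  simp only [← prod_pow]
  refine prod_congr rfl fun i _ => prod_congr rfl fun j _ => ?_
  rw [← mul_pow]
  congr 1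
  ring

theorem integral_exp_int (m : ℤ) :
    ∫ t in Set.Icc (0 : ℝ) (2 * π), Complex.exp ((m : ℂ) * Complex.I * t) =
      if m = 0 then ((2 * π : ℝ) : ℂ) else 0 := by
  rw [integral_Icc_eq_integral_Ioc, ← intervalIntegral.integral_of_le (by positivity)]
  split_ifs with h
  · simp [h]
  · rw [integral_exp_mul_complex (mul_ne_zero (Int.cast_ne_zero.2 h) Complex.I_ne_zero)]
    have e : Complex.exp ((m : ℂ) * Complex.I * ((2 * π : ℝ) : ℂ)) = 1 := by
      rw [show (m : ℂ) * Complex.I * ((2 * π : ℝ) : ℂ) = (m : ℂ) * (2 * π * Complex.I) by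
        push_cast; ring]
      exact Complex.exp_int_mul_two_pi_mul_I m
    rw [e]
    simp

theorem integral_torus_monomial {n : ℕ} (m : Fin n → ℤ) :
    ∫ θ in Set.univ.pi fun _ : Fin n => Set.Icc (0 : ℝ) (2 * π),
        ∏ j, Complex.exp ((m j : ℂ) * Complex.I * (θ j)) =
      if m = 0 then (((2 * π) ^ n : ℝ) : ℂ) else 0 := by
  rw [volume_pi, Measure.restrict_pi_pi,
    integral_fintype_prod_eq_prod (fun j (t : ℝ) => Complex.exp ((m j : ℂ) * Complex.I * t)),
    prod_congr rfl fun j _ => integral_exp_int (m j)]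
  split_ifs with h
  · simp [h]
  · obtain ⟨j, hj⟩ := Function.ne_iff.1 h
    exact prod_eq_zero (mem_univ j) (if_neg hj)

/-- `exp (i θ)`. -/
def circleExp {n : ℕ} (θ : Fin n → ℝ) (j : Fin n) : ℂ := Complex.exp (Complex.I * (θ j))

theorem integral_torus_coeff {n : ℕ} (G : MvPolynomial (Fin n) ℤ) (e : Fin n →₀ ℕ) :
    ∫ θ in Set.univ.pi fun _ : Fin n => Set.Icc (0 : ℝ) (2 * π),
        MvPolynomial.eval₂ (Int.castRingHom ℂ) (circleExp θ) G / ∏ j, circleExp θ j ^ e j =
      ((MvPolynomial.coeff e G : ℤ) : ℂ) * (((2 * π) ^ n : ℝ) : ℂ) := by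
  have hpt : ∀ θ : Fin n → ℝ,
      MvPolynomial.eval₂ (Int.castRingHom ℂ) (circleExp θ) G / ∏ j, circleExp θ j ^ e j =
        ∑ d ∈ G.support, ((MvPolynomial.coeff d G : ℤ) : ℂ) *
          ∏ j, Complex.exp ((((d j : ℤ) - (e j : ℤ) : ℤ) : ℂ) * Complex.I * (θ j)) := fun θ => by
    rw [MvPolynomial.eval₂_eq', sum_div]
    refine sum_congr rfl fun d _ => ?_
    rw [mul_div_assoc, ← prod_div_distrib]
    refine congrArg₂ (· * ·) rfl (prod_congr rfl fun j _ => ?_)
    rw [circleExp, ← Complex.exp_nat_mul, ← Complex.exp_nat_mul, ← Complex.exp_sub]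
    push_cast
    ring_nf
  simp only [hpt]
  rw [integral_finsetSum _ fun d _ => ?_]
  · simp only [integral_const_mul, integral_torus_monomial]
    rw [sum_eq_single e]
    · simp [Pi.zero_def]
    · intro d _ hd
      rw [if_neg ?_, mul_zero]
      intro h
      refine hd (Finsupp.ext fun j => ?_)
      have := congrFun h j
      simp only [Pi.zero_apply, sub_eq_zero, Nat.cast_inj] at this
      exact this
    · intro h
      rw [MvPolynomial.notMem_support_iff.1 h]
      simp
  · refine Integrable.const_mul ?_ _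
    exact ContinuousOn.integrableOn_compact (isCompact_univ_pi fun _ => isCompact_Icc)
      (by fun_prop)

theorem circleExp_conj {n : ℕ} (θ : Fin n → ℝ) (j : Fin n) :
    (starRingEnd ℂ) (circleExp θ j) = (circleExp θ j)⁻¹ := by
  rw [circleExp, ← Complex.exp_conj, map_mul, Complex.conj_I, Complex.conj_ofReal, neg_mul,
    Complex.exp_neg]

theorem prod_norm_sub_eq {n : ℕ} (k : ℕ) (θ : Fin n → ℝ) :
    ((∏ i : Fin n, ∏ j ∈ Ioi i, ‖circleExp θ i - circleExp θ j‖ ^ (2 * k) : ℝ) : ℂ) =
      MvPolynomial.eval₂ (Int.castRingHom ℂ) (circleExp θ)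
          (dysonPoly (univ : Finset (Fin n)) fun _ => k) /
        ∏ j, circleExp θ j ^ dysonExp (univ : Finset (Fin n)) (fun _ => k) j := by
  have hne : ∀ j, circleExp θ j ≠ 0 := fun j => Complex.exp_ne_zero _
  have hden : ∏ j, circleExp θ j ^ dysonExp (univ : Finset (Fin n)) (fun _ => k) j =
      ∏ i : Fin n, ∏ j ∈ ({i}ᶜ : Finset (Fin n)), circleExp θ j ^ k := by
    rw [prod_comm' (t' := univ) (s' := fun j => ({j}ᶜ : Finset (Fin n)))
      (h := fun i j => by simp [eq_comm])]
    refine prod_congr rfl fun j _ => ?_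
    rw [dysonExp_const, prod_const, card_compl, card_singleton, Fintype.card_fin, ← pow_mul,
      mul_comm]
  rw [hden, dysonPoly]
  simp only [MvPolynomial.eval₂_prod, MvPolynomial.eval₂_pow, MvPolynomial.eval₂_sub,
    MvPolynomial.eval₂_X, erase_univ, ← prod_div_distrib, ← div_pow]
  rw [← prod_prod_Ioi_mul_eq_prod_prod_off_diag
    (fun a b : Fin n => ((circleExp θ a - circleExp θ b) / circleExp θ a) ^ k)]
  push_cast
  refine prod_congr rfl fun i _ => prod_congr rfl fun j _ => ?_
  rw [← mul_pow, pow_mul, ← Complex.mul_conj', map_sub, circleExp_conj, circleExp_conj]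
  congr 1
  have := hne i
  have := hne j
  field_simp

/-- **The circular ensembles at even `β`.** -/
theorem integral_torus_dyson (n k : ℕ) :
    (k ! : ℝ) ^ n * ∫ θ in Set.univ.pi fun _ : Fin n => Set.Icc (0 : ℝ) (2 * π),
        ∏ i : Fin n, ∏ j ∈ Ioi i, ‖circleExp θ i - circleExp θ j‖ ^ (2 * k) =
      ((n * k)! : ℝ) * (2 * π) ^ n := by
  apply Complex.ofReal_injective
  rw [Complex.ofReal_mul, ← integral_complex_ofReal]
  simp only [prod_norm_sub_eq]
  rw [integral_torus_coeff]
  have h := congrArg (fun z : ℤ => (z : ℂ)) (coeff_dysonPoly_const n k)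
  push_cast at h ⊢
  linear_combination ((2 * (π : ℂ)) ^ n) * h

end FA.DysonConstantTerm
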