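import Fermat.Agent.DysonConstantTerm.Main

/-!
# Dixon's identity

Dyson's theorem for three variables.
-/

set_option autoImplicit false

noncomputable section

namespace FA.DysonConstantTerm

open Finset MvPolynomial
open scoped Nat

theorem coeff_threeTerm (z : ℤ) (u v w : ℕ) (e : Fin 3 →₀ ℕ) :
    coeff e (C z * (X 0 ^ u * X 1 ^ v * X 2 ^ w)) =
      if u = e 0 ∧ v = e 1 ∧ w = e 2 then z else 0 := by
  rw [X_pow_eq_monomial, X_pow_eq_monomial, X_pow_eq_monomial, monomial_mul, monomial_mul,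
    C_mul_monomial, coeff_monomial, mul_one, mul_one, mul_one]
  refine if_congr ⟨fun h => ?_, fun h => ?_⟩ rfl rfl
  · rw [← h]
    simp
  · ext i
    fin_cases i <;> simp [h.1, h.2.1, h.2.2]

theorem dysonPoly_three (a b c : ℕ) : dysonPoly (univ : Finset (Fin 3)) ![a, b, c] =
    (-1) ^ (a + b + c) * (X 0 - X 1) ^ (a + b) * (X 1 - X 2) ^ (b + c) *
      (X 2 - X 0) ^ (c + a) := by
  have e0 : (univ : Finset (Fin 3)).erase 0 = {1, 2} := by decide
  have e1 : (univ : Finset (Fin 3)).erase 1 = {0, 2} := by decide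
  have e2 : (univ : Finset (Fin 3)).erase 2 = {0, 1} := by decide
  simp only [dysonPoly, Fin.prod_univ_three, e0, e1, e2, Matrix.cons_val]
  rw [prod_pair (by decide), prod_pair (by decide), prod_pair (by decide),
    show (X 1 - X 0 : MvPolynomial (Fin 3) ℤ) = -1 * (X 0 - X 1) by ring,
    show (X 2 - X 1 : MvPolynomial (Fin 3) ℤ) = -1 * (X 1 - X 2) by ring,
    show (X 0 - X 2 : MvPolynomial (Fin 3) ℤ) = -1 * (X 2 - X 0) by ring]
  simp only [mul_pow]
  ring

theorem dysonExp_three (a b c : ℕ) (i : Fin 3) :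
    dysonExp (univ : Finset (Fin 3)) ![a, b, c] i = ![b + c, a + c, a + b] i := by
  have e0 : (univ : Finset (Fin 3)).erase 0 = {1, 2} := by decide
  have e1 : (univ : Finset (Fin 3)).erase 1 = {0, 2} := by decide
  have e2 : (univ : Finset (Fin 3)).erase 2 = {0, 1} := by decide
  rw [dysonExp_apply, if_pos (mem_univ i)]
  fin_cases i <;> simp [e0, e1, e2]

theorem multinomial_three (a b c : ℕ) :
    a ! * b ! * c ! * Nat.multinomial (univ : Finset (Fin 3)) ![a, b, c] = (a + b + c)! := by
  simpa [Fin.prod_univ_three, Fin.sum_univ_three] using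
    Nat.multinomial_spec (s := (univ : Finset (Fin 3))) (f := ![a, b, c])

/-- **Dixon's identity.** -/
theorem dixon (a b c : ℕ) :
    ((a ! * b ! * c ! : ℕ) : ℤ) * ∑ j ∈ range (2 * min a (min b c) + 1),
      (-1) ^ (j + min a (min b c)) * ((a + b).choose (a + j - min a (min b c)) : ℤ) *
        ((b + c).choose (b + j - min a (min b c)) : ℤ) *
        ((c + a).choose (c + j - min a (min b c)) : ℤ) = ((a + b + c)! : ℤ) := by
  rw [← multinomial_three a b c, Nat.cast_mul (a ! * b ! * c !)]
  congr 1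
  rw [← coeff_dysonPoly, dysonPoly_three, sub_pow, sub_pow, sub_pow]
  simp only [mul_sum, sum_mul, coeff_sum, ← sum_product']
  have hterm : ∀ x : ℕ × ℕ × ℕ,
      coeff (dysonExp (univ : Finset (Fin 3)) ![a, b, c]) ((-1) ^ (a + b + c) *
        ((-1) ^ (x.2.2 + (a + b)) * X 0 ^ x.2.2 * X 1 ^ (a + b - x.2.2) *
          ((a + b).choose x.2.2 : MvPolynomial (Fin 3) ℤ)) *
        ((-1) ^ (x.2.1 + (b + c)) * X 1 ^ x.2.1 * X 2 ^ (b + c - x.2.1) *
          ((b + c).choose x.2.1 : MvPolynomial (Fin 3) ℤ)) *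
        ((-1) ^ (x.1 + (c + a)) * X 2 ^ x.1 * X 0 ^ (c + a - x.1) *
          ((c + a).choose x.1 : MvPolynomial (Fin 3) ℤ))) =
      if x.2.2 + (c + a - x.1) = b + c ∧ a + b - x.2.2 + x.2.1 = a + c ∧
          b + c - x.2.1 + x.1 = a + b then
        (-1) ^ (a + b + c + (x.2.2 + (a + b)) + (x.2.1 + (b + c)) + (x.1 + (c + a))) *
          ((a + b).choose x.2.2 : ℤ) * ((b + c).choose x.2.1 : ℤ) * ((c + a).choose x.1 : ℤ)
      else 0 := fun x => by
    have h := coeff_threeTerm
      ((-1) ^ (a + b + c + (x.2.2 + (a + b)) + (x.2.1 + (b + c)) + (x.1 + (c + a))) *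
        ((a + b).choose x.2.2 : ℤ) * ((b + c).choose x.2.1 : ℤ) * ((c + a).choose x.1 : ℤ))
      (x.2.2 + (c + a - x.1)) (a + b - x.2.2 + x.2.1) (b + c - x.2.1 + x.1)
      (dysonExp (univ : Finset (Fin 3)) ![a, b, c])
    simp only [dysonExp_three, Matrix.cons_val] at h
    refine Eq.trans (congrArg (coeff _) ?_) h
    simp only [map_mul, map_pow, map_neg, map_one, map_natCast, pow_add]
    ring
  rw [sum_congr rfl fun x _ => hterm x, ← sum_filter]
  obtain ⟨m, hm⟩ : ∃ m, m = min a (min b c) := ⟨_, rfl⟩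
  rw [← hm]
  refine sum_nbij' (fun j => (a + m - j, c + m - j, b + m - j)) (fun x => b + m - x.2.2)
    (fun j hj => ?_) (fun x hx => ?_) (fun j hj => ?_) (fun x hx => ?_) fun j hj => ?_
  · simp only [mem_filter, mem_product, mem_range] at hj ⊢
    omega
  · simp only [mem_filter, mem_product, mem_range] at hx ⊢
    omega
  · simp only [mem_range] at hj
    show b + m - (b + m - j) = j
    omega
  · simp only [mem_filter, mem_product, mem_range] at hx
    simp only [Prod.ext_iff]
    omega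
  · simp only [mem_range] at hj
    rw [neg_one_pow_eq_pow_mod_two, neg_one_pow_eq_pow_mod_two (n := a + b + c + _ + _ + _),
      show (j + m) % 2 = (a + b + c + (b + m - j + (a + b)) + (c + m - j + (b + c)) +
        (a + m - j + (c + a))) % 2 by omega,
      ← Nat.choose_symm (show a + j - m ≤ a + b by omega),
      ← Nat.choose_symm (show b + j - m ≤ b + c by omega),
      ← Nat.choose_symm (show c + j - m ≤ c + a by omega),
      show a + b - (a + j - m) = b + m - j by omega,
      show b + c - (b + j - m) = c + m - j by omega,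
      show c + a - (c + j - m) = a + m - j by omega]

theorem dixon_cube (n : ℕ) :
    ((n ! ^ 3 : ℕ) : ℤ) * ∑ j ∈ range (2 * n + 1), (-1) ^ j * ((2 * n).choose j : ℤ) ^ 3 =
      (-1) ^ n * ((3 * n)! : ℤ) := by
  have h := dixon n n n
  simp only [min_self] at h
  rw [show n + n + n = 3 * n by ring, show n + n = 2 * n by ring] at h
  rw [← h, mul_sum, mul_sum, mul_sum]
  refine sum_congr rfl fun j hj => ?_
  rw [show n + j - n = j by omega, pow_add]
  push_cast
  have e : ((-1 : ℤ) ^ n) * (-1) ^ n = 1 := by rw [← mul_pow]; norm_num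
  linear_combination (-((n ! : ℤ) ^ 3 * (-1) ^ j * ((2 * n).choose j : ℤ) ^ 3)) * e

end FA.DysonConstantTerm
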